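/-
S41 / helper81: the integer-row core of the "non-Eisenstein eigen-symbol vanishes" theorem
(report #1264, steps (3)-(5)), Mathlib only.

A symbol `σ : ℤ → ℤ → F` on coprime integer rows `(c, d)` with `N ∣ c`, invariant under
`d ↦ d + t c` (S1), `c ↦ c + N s d` (S2) and `d ↦ Q d` (SQ), and satisfying the Hecke relation at
an odd prime `l` with eigenvalue `θ ≠ l + 1` (H), vanishes on all rows with `d ≡ 1 mod N`.
-/
import Mathlib

set_option autoImplicit false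

namespace Fermat.Agent.S41.H81

section Omega

variable {F V : Type*} [Field F] [AddCommGroup V] [Module F V]

theorem pow_mul_apply_of_fixed (T : V →ₗ[F] V) (k : ℕ) (v : V) (h : (T ^ k) v = v) (j : ℕ) :
    (T ^ (k * j)) v = v := by
  induction j with
  | zero => simp
  | succ j ih =>
    rw [Nat.mul_succ, pow_add, Module.End.mul_apply, h, ih]

/-- **ω-lemma.** If `T - 1` is injective on a finite-dimensional space, there is `ω ≥ 1` such that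
`T ^ π` has no nonzero fixed vector for every `π ≥ 1` coprime to `ω`. -/
theorem exists_omega [FiniteDimensional F V] (T : V →ₗ[F] V) (hker : ∀ v, T v = v → v = 0) :
    ∃ ω : ℕ, 0 < ω ∧ ∀ π : ℕ, 0 < π → Nat.Coprime π ω → ∀ v : V, (T ^ π) v = v → v = 0 := by
  classical
  let fixk : ℕ → Submodule F V := fun k => LinearMap.ker (T ^ k - 1)
  have hmem : ∀ k v, v ∈ fixk k ↔ (T ^ k) v = v := by
    intro k v
    simp only [fixk, LinearMap.mem_ker, LinearMap.sub_apply, Module.End.one_apply, sub_eq_zero]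
  have hdvd : ∀ k k', k ∣ k' → fixk k ≤ fixk k' := by
    rintro k k' ⟨j, rfl⟩ v hv
    rw [hmem] at hv ⊢
    exact pow_mul_apply_of_fixed T k v hv j
  let f : ℕ →o Submodule F V :=
    ⟨fun n => fixk n.factorial, monotone_nat_of_le_succ fun n =>
      hdvd _ _ (Nat.factorial_dvd_factorial (Nat.le_succ n))⟩
  obtain ⟨n, hn⟩ := (monotone_stabilizes_iff_noetherian (R := F) (M := V)).mpr inferInstance f
  refine ⟨n.factorial, Nat.factorial_pos n, fun π hπ hcop v hv => ?_⟩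
  have h1 : v ∈ fixk n.factorial := by
    have h2 : v ∈ fixk (max π n).factorial :=
      hdvd π _ (Nat.dvd_factorial hπ (le_max_left _ _)) ((hmem π v).2 hv)
    have h3 : f n = f (max π n) := hn _ (le_max_right _ _)
    change fixk n.factorial = fixk (max π n).factorial at h3
    rw [h3]; exact h2
  rw [hmem] at h1
  apply hker
  rcases Nat.lt_or_ge 1 n.factorial with hω | hω
  · obtain ⟨a, -, ha⟩ := Nat.exists_mul_mod_eq_one_of_coprime hcop hω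
    have h4 : (T ^ (π * a)) v = v := pow_mul_apply_of_fixed T π v hv a
    have h5 : π * a = 1 + n.factorial * (π * a / n.factorial) := by
      have := Nat.mod_add_div (π * a) n.factorial
      omega
    rw [h5, pow_add, Module.End.mul_apply, pow_mul_apply_of_fixed T _ v h1, pow_one] at h4
    exact h4
  · have h6 : n.factorial = 1 := le_antisymm hω (Nat.factorial_pos n)
    rw [h6, pow_one] at h1
    exact h1

end Omega

section Exponent

/-- **LTE exponent.** For an odd prime `l`, `Q > 1` prime to `l` and to `C`, there is `n₀ ≥ 1`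
such that for all `n ≥ n₀` some power of `Q` is `1 + C l^n m₀` with `l ∤ m₀`. -/
theorem exists_pow_eq_one_add (l : ℕ) (hl : l.Prime) (hl2 : l ≠ 2) (Q : ℕ) (hQ : 1 < Q)
    (hQl : Nat.Coprime Q l) (C : ℕ) (hC : 0 < C) (hQC : Nat.Coprime Q C) (hlC : Nat.Coprime l C) :
    ∃ n₀ : ℕ, 0 < n₀ ∧ ∀ n, n₀ ≤ n → ∃ k m₀ : ℕ, Q ^ k = 1 + C * l ^ n * m₀ ∧ ¬ l ∣ m₀ := by
  have : Fact l.Prime := ⟨hl⟩
  have hlodd : Odd l := hl.odd_of_ne_two hl2
  have hl3 : 3 ≤ l := by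
    have := hl.two_le
    omega
  set e : ℕ := (l - 1) * Nat.totient C with he
  have he0 : e ≠ 0 := by
    have h1 : 0 < Nat.totient C := Nat.totient_pos.mpr hC
    have h2 : 0 < l - 1 := by omega
    exact (Nat.mul_pos h2 h1).ne'
  set y : ℕ := Q ^ e with hy
  have hy1 : 1 < y := Nat.one_lt_pow he0 hQ
  have hyC : y ≡ 1 [MOD C] := by
    have h1 : Q ^ Nat.totient C ≡ 1 [MOD C] := Nat.ModEq.pow_totient hQC
    have h2 := h1.pow (l - 1)
    rw [one_pow, ← pow_mul, mul_comm] at h2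
    exact h2
  have hyl : y ≡ 1 [MOD l] := by
    have h1 : Q ^ Nat.totient l ≡ 1 [MOD l] := Nat.ModEq.pow_totient hQl
    rw [Nat.totient_prime hl] at h1
    have h2 := h1.pow (Nat.totient C)
    rw [one_pow, ← pow_mul] at h2
    exact h2
  have hly : l ∣ y - 1 := (Nat.modEq_iff_dvd' hy1.le).mp hyl.symm
  have hnly : ¬ l ∣ y := by
    intro h
    have h3 : y ≡ 0 [MOD l] := (Nat.modEq_zero_iff_dvd).mpr h
    have h4 : (1 : ℕ) ≡ 0 [MOD l] := hyl.symm.trans h3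
    have h5 : l ∣ 1 := (Nat.modEq_zero_iff_dvd).mp h4
    have := Nat.le_of_dvd one_pos h5
    omega
  have hy10 : y - 1 ≠ 0 := by omega
  refine ⟨padicValNat l (y - 1), one_le_padicValNat_of_dvd hy10 hly, fun n hn => ?_⟩
  set n₀ := padicValNat l (y - 1) with hn₀
  set U : ℕ := y ^ l ^ (n - n₀) with hU
  have hk0 : l ^ (n - n₀) ≠ 0 := pow_ne_zero _ hl.ne_zero
  have hU1 : 1 < U := Nat.one_lt_pow hk0 hy1
  have hval : padicValNat l (U - 1) = n := by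
    have h1 := padicValNat.pow_sub_pow (p := l) hlodd hy1 hly hnly hk0
    rw [one_pow, padicValNat.prime_pow] at h1
    rw [hU, h1]
    omega
  have hU10 : U - 1 ≠ 0 := by omega
  have hln : l ^ n ∣ U - 1 := by
    have := pow_padicValNat_dvd (p := l) (n := U - 1)
    rwa [hval] at this
  have hln1 : ¬ l ^ (n + 1) ∣ U - 1 := by
    have := pow_succ_padicValNat_not_dvd (p := l) hU10
    rwa [hval] at this
  have hCU : C ∣ U - 1 := by
    have h1 : U ≡ 1 [MOD C] := by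
      have := hyC.pow (l ^ (n - n₀))
      rwa [one_pow] at this
    exact (Nat.modEq_iff_dvd' hU1.le).mp h1.symm
  have hcop : Nat.Coprime C (l ^ n) := (Nat.Coprime.pow_left n hlC).symm
  obtain ⟨m₀, hm₀⟩ : C * l ^ n ∣ U - 1 := Nat.Coprime.mul_dvd_of_dvd_of_dvd hcop hCU hln
  refine ⟨e * l ^ (n - n₀), m₀, ?_, ?_⟩
  · rw [pow_mul, ← hy, ← hU]
    omega
  · rintro ⟨t, rfl⟩
    apply hln1
    rw [hm₀]
    exact ⟨C * t, by ring⟩

end Exponent

section Collapse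

variable {F : Type*}

theorem one_add_pow_eq (x : ℤ) (i : ℕ) : ∃ K : ℤ, (1 + x) ^ i = 1 + i * x + x ^ 2 * K := by
  induction i with
  | zero => exact ⟨0, by simp⟩
  | succ i ih =>
    obtain ⟨K, hK⟩ := ih
    refine ⟨i + K + K * x, ?_⟩
    rw [pow_succ, hK]
    push_cast
    ring

/-- iterating the `Q`-rule. -/
theorem sigma_pow_mul (N Q : ℕ) (σ : ℤ → ℤ → F)
    (SQ : ∀ c d : ℤ, (N : ℤ) ∣ c → IsCoprime c d → IsCoprime c (Q : ℤ) → σ c (Q * d) = σ c d)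
    (c d : ℤ) (hNc : (N : ℤ) ∣ c) (hcd : IsCoprime c d) (hcQ : IsCoprime c (Q : ℤ)) (k : ℕ) :
    σ c ((Q : ℤ) ^ k * d) = σ c d := by
  induction k with
  | zero => simp
  | succ k ih =>
    rw [pow_succ', mul_assoc, SQ c _ hNc (IsCoprime.mul_right (IsCoprime.pow_right hcQ) hcd) hcQ, ih]

/-- **Fibre collapse**: if a power of `Q` is `1 + c m₀` with `l ∤ m₀` and `l ∣ c`, then the symbol
is constant on the fibre `{d - j c}` over `d mod c` at the modulus `l c`. -/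
theorem collapse (N l Q : ℕ) (hl : l.Prime) (σ : ℤ → ℤ → F)
    (S1 : ∀ c d t : ℤ, (N : ℤ) ∣ c → IsCoprime c d → σ c (d + t * c) = σ c d)
    (SQ : ∀ c d : ℤ, (N : ℤ) ∣ c → IsCoprime c d → IsCoprime c (Q : ℤ) → σ c (Q * d) = σ c d)
    (c d : ℤ) (hNc : (N : ℤ) ∣ c) (hlc : (l : ℤ) ∣ c) (hcd : IsCoprime ((l : ℤ) * c) d)
    (hcQ : IsCoprime ((l : ℤ) * c) (Q : ℤ)) (k : ℕ) (m₀ : ℤ) (hU : (Q : ℤ) ^ k = 1 + c * m₀)
    (hm₀ : ¬ (l : ℤ) ∣ m₀) (j : ℤ) :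
    σ ((l : ℤ) * c) (d - j * c) = σ ((l : ℤ) * c) d := by
  have hlp : Prime (l : ℤ) := Nat.prime_iff_prime_int.mp hl
  have hld : IsCoprime (l : ℤ) d := hcd.of_mul_left_left
  have hlm : IsCoprime (l : ℤ) m₀ := (Prime.coprime_iff_not_dvd hlp).mpr hm₀
  obtain ⟨a, b, hab⟩ : IsCoprime (l : ℤ) (m₀ * d) := IsCoprime.mul_right hlm hld
  have hl0 : (0 : ℤ) < l := by exact_mod_cast hl.pos
  -- the exponent `i`
  set i0 : ℤ := (-j * b) % l with hi0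
  have hi0nn : 0 ≤ i0 := Int.emod_nonneg _ hl0.ne'
  obtain ⟨i, hi⟩ : ∃ i : ℕ, (i : ℤ) = i0 := ⟨i0.toNat, Int.toNat_of_nonneg hi0nn⟩
  have hdiv : (l : ℤ) ∣ (i : ℤ) * (m₀ * d) + j := by
    have h1 : i0 = -j * b - l * ((-j * b) / l) := by
      rw [hi0, Int.emod_def]
    rw [hi, h1]
    refine ⟨j * a - ((-j * b) / l) * (m₀ * d), ?_⟩
    linear_combination (-j) * hab
  obtain ⟨e1, he1⟩ := hdiv
  obtain ⟨c2, hc2⟩ := hlc
  obtain ⟨K, hK⟩ := one_add_pow_eq (c * m₀) i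
  have hNlc : (N : ℤ) ∣ (l : ℤ) * c := Dvd.dvd.mul_left hNc _
  -- `U ^ i * d = (d - j c) + t * (l c)`
  have hkey : (Q : ℤ) ^ (k * i) * d = (d - j * c) + (e1 + c2 * m₀ ^ 2 * K * d) * ((l : ℤ) * c) := by
    rw [pow_mul, hU, hK]
    have h2 : (i : ℤ) * (c * m₀) * d + j * c = c * ((i : ℤ) * (m₀ * d) + j) := by ring
    have h3 : c ^ 2 = (l : ℤ) * c * c2 := by
      rw [sq]; nth_rewrite 1 [hc2]; ring
    have h4 : (c * m₀) ^ 2 = (l : ℤ) * c * c2 * m₀ ^ 2 := by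
      rw [mul_pow, h3]
    calc (1 + (i : ℤ) * (c * m₀) + (c * m₀) ^ 2 * K) * d
        = d - j * c + ((i : ℤ) * (c * m₀) * d + j * c) + (c * m₀) ^ 2 * K * d := by ring
      _ = d - j * c + c * ((l : ℤ) * e1) + (l : ℤ) * c * c2 * m₀ ^ 2 * K * d := by
          rw [h2, he1, h4]
      _ = (d - j * c) + (e1 + c2 * m₀ ^ 2 * K * d) * ((l : ℤ) * c) := by ring
  have hcopU : IsCoprime ((l : ℤ) * c) ((Q : ℤ) ^ (k * i) * d) :=
    IsCoprime.mul_right (IsCoprime.pow_right hcQ) hcd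
  have hcop' : IsCoprime ((l : ℤ) * c) (d - j * c) := by
    have h5 : d - j * c
        = (Q : ℤ) ^ (k * i) * d + ((l : ℤ) * c) * (-(e1 + c2 * m₀ ^ 2 * K * d)) := by
      rw [hkey]; ring
    rw [h5]
    exact hcopU.add_mul_left_right _
  rw [← S1 _ (d - j * c) (e1 + c2 * m₀ ^ 2 * K * d) hNlc hcop', ← hkey]
  exact sigma_pow_mul N Q σ SQ _ d hNlc hcd hcQ (k * i)

end Collapse

section Main

variable {F : Type*} [Field F]

/-- The shift operator of the recurrence `θ s_(n+1) = l s_(n+2) + s_n` on pairs `(s_n, s_(n+1))`. -/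
def recOp (θ : F) (l : ℕ) : (F × F) →ₗ[F] (F × F) :=
  (LinearMap.snd F F F).prod
    ((θ / (l : F)) • LinearMap.snd F F F - (1 / (l : F)) • LinearMap.fst F F F)

theorem recOp_apply (θ : F) (l : ℕ) (x y : F) :
    recOp θ l (x, y) = (y, θ / l * y - 1 / l * x) := by
  simp [recOp]

theorem recOp_fixed (θ : F) (l : ℕ) (hlF : (l : F) ≠ 0) (hθ : θ ≠ l + 1) (v : F × F)
    (h : recOp θ l v = v) : v = 0 := by
  obtain ⟨x, y⟩ := v
  rw [recOp_apply, Prod.mk.injEq] at h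
  obtain ⟨h1, h2⟩ := h
  subst h1
  have h3 : (θ - (l + 1)) * y = 0 := by
    field_simp at h2
    linear_combination h2
  rcases mul_eq_zero.mp h3 with h4 | h4
  · exact absurd (sub_eq_zero.mp h4) hθ
  · rw [h4]; rfl

/-- A sequence satisfying the recurrence from some point on and periodic with a period prime to
`ω` vanishes identically. -/
theorem seq_eq_zero (θ : F) (l : ℕ) (hlF : (l : F) ≠ 0) (ω : ℕ)
    (hω : ∀ π : ℕ, 0 < π → Nat.Coprime π ω → ∀ v : F × F, (recOp θ l ^ π) v = v → v = 0)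
    (s : ℕ → F) (n₀ π : ℕ) (hπ : 0 < π) (hcop : Nat.Coprime π ω)
    (hrec : ∀ k, n₀ ≤ k + 1 → θ * s (k + 1) = l * s (k + 2) + s k)
    (hper : ∀ m, s (m + π) = s m) : ∀ m, s m = 0 := by
  have hstep : ∀ k, n₀ ≤ k + 1 → recOp θ l (s k, s (k + 1)) = (s (k + 1), s (k + 2)) := by
    intro k hk
    rw [recOp_apply]
    have h1 := hrec k hk
    refine Prod.ext rfl ?_
    show θ / l * s (k + 1) - 1 / l * s k = s (k + 2)
    field_simp
    linear_combination h1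
  have hiter : ∀ j k, n₀ ≤ k + 1 →
      (recOp θ l ^ j) (s k, s (k + 1)) = (s (k + j), s (k + j + 1)) := by
    intro j
    induction j with
    | zero => intro k _; simp
    | succ j ih =>
      intro k hk
      rw [pow_succ', Module.End.mul_apply, ih k hk, hstep (k + j) (by omega)]
      rfl
  have hzero : ∀ k, n₀ ≤ k + 1 → s k = 0 := by
    intro k hk
    have h1 := hiter π k hk
    have h2 : (s (k + π), s (k + π + 1)) = (s k, s (k + 1)) := by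
      rw [hper k, show k + π + 1 = (k + 1) + π by omega, hper (k + 1)]
    rw [h2] at h1
    have h3 := hω π hπ hcop _ h1
    exact (Prod.mk_eq_zero.mp h3).1
  have hmul : ∀ j m, s (m + π * j) = s m := by
    intro j
    induction j with
    | zero => intro m; simp
    | succ j ih => intro m; rw [Nat.mul_succ, ← add_assoc, hper, ih]
  intro m
  rw [← hmul n₀ m]
  apply hzero
  have h4 : n₀ ≤ π * n₀ := Nat.le_mul_of_pos_left n₀ hπ
  omega

/-- **(REC)** for the sequence `m ↦ σ (l^m C, d)`. -/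
theorem rec_of (N l Q : ℕ) (hl : l.Prime) (hl2 : l ≠ 2) (hQ : 1 < Q) (hQl : Nat.Coprime Q l)
    (θ : F) (σ : ℤ → ℤ → F)
    (S1 : ∀ c d t : ℤ, (N : ℤ) ∣ c → IsCoprime c d → σ c (d + t * c) = σ c d)
    (SQ : ∀ c d : ℤ, (N : ℤ) ∣ c → IsCoprime c d → IsCoprime c (Q : ℤ) → σ c (Q * d) = σ c d)
    (H : ∀ c d : ℤ, (N : ℤ) ∣ c → IsCoprime ((l : ℤ) * c) d → d ≡ 1 [ZMOD (l : ℤ)] →
      θ * σ ((l : ℤ) * c) d
        = ∑ j ∈ Finset.range l, σ ((l : ℤ) * ((l : ℤ) * c)) (d - (j : ℤ) * ((l : ℤ) * c)) + σ c d)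
    (C : ℕ) (hC : 0 < C) (hNC : N ∣ C) (hQC : Nat.Coprime Q C) (hlC : Nat.Coprime l C) :
    ∃ n₀ : ℕ, ∀ d : ℤ, IsCoprime ((l : ℤ) * C) d → d ≡ 1 [ZMOD (l : ℤ)] → ∀ k, n₀ ≤ k + 1 →
      θ * σ ((l : ℤ) ^ (k + 1) * C) d
        = l * σ ((l : ℤ) ^ (k + 2) * C) d + σ ((l : ℤ) ^ k * C) d := by
  obtain ⟨n₀, -, hE⟩ := exists_pow_eq_one_add l hl hl2 Q hQ hQl C hC hQC hlC
  refine ⟨n₀, fun d hd hd1 k hk => ?_⟩
  obtain ⟨kk, m₀, hU, hm₀⟩ := hE (k + 1) hk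
  have hNc : (N : ℤ) ∣ (l : ℤ) ^ k * C :=
    Dvd.dvd.mul_left (Int.natCast_dvd_natCast.mpr hNC) _
  have hld : IsCoprime (l : ℤ) d := hd.of_mul_left_left
  have hCd : IsCoprime (C : ℤ) d := hd.of_mul_left_right
  have hcd : IsCoprime ((l : ℤ) ^ k * C) d := IsCoprime.mul_left (IsCoprime.pow_left hld) hCd
  have hlcd : IsCoprime ((l : ℤ) * ((l : ℤ) ^ k * C)) d := IsCoprime.mul_left hld hcd
  have h1 := H ((l : ℤ) ^ k * C) d hNc hlcd hd1
  have hc1 : (l : ℤ) * ((l : ℤ) ^ k * C) = (l : ℤ) ^ (k + 1) * C := by ring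
  have hc2 : (l : ℤ) * ((l : ℤ) * ((l : ℤ) ^ k * C)) = (l : ℤ) ^ (k + 2) * C := by ring
  have hlQ : IsCoprime (l : ℤ) (Q : ℤ) := Nat.isCoprime_iff_coprime.mpr hQl.symm
  have hCQ : IsCoprime (C : ℤ) (Q : ℤ) := Nat.isCoprime_iff_coprime.mpr hQC.symm
  have hcol : ∀ j : ℤ, σ ((l : ℤ) * ((l : ℤ) * ((l : ℤ) ^ k * C))) (d - j * ((l : ℤ) * ((l : ℤ) ^ k * C)))
      = σ ((l : ℤ) * ((l : ℤ) * ((l : ℤ) ^ k * C))) d := by
    intro j
    refine collapse N l Q hl σ S1 SQ ((l : ℤ) * ((l : ℤ) ^ k * C)) d (Dvd.dvd.mul_left hNc _)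
      (dvd_mul_right _ _) (IsCoprime.mul_left hld hlcd) ?_ kk (m₀ : ℤ) ?_ ?_ j
    · exact IsCoprime.mul_left hlQ
        (IsCoprime.mul_left hlQ (IsCoprime.mul_left (IsCoprime.pow_left hlQ) hCQ))
    · have h2 : ((Q ^ kk : ℕ) : ℤ) = ((1 + C * l ^ (k + 1) * m₀ : ℕ) : ℤ) := by rw [hU]
      push_cast at h2
      rw [h2]; ring
    · exact fun h => hm₀ (Int.natCast_dvd_natCast.mp h)
  rw [Finset.sum_congr rfl (fun (j : ℕ) _ => hcol (j : ℤ)), Finset.sum_const, Finset.card_range,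
    nsmul_eq_mul, hc2, hc1] at h1
  exact h1

omit [Field F] in
/-- Periodicity of `m ↦ σ (l^m C, d)` when `l^π ≡ 1 mod d`. -/
theorem periodic_of (N l : ℕ) (σ : ℤ → ℤ → F)
    (S2 : ∀ c d s : ℤ, (N : ℤ) ∣ c → IsCoprime c d → σ (c + N * s * d) d = σ c d)
    (C : ℕ) (hNC : N ∣ C) (d : ℤ) (hd : IsCoprime ((l : ℤ) * C) d) (π : ℕ)
    (hπ : d ∣ (l : ℤ) ^ π - 1) (m : ℕ) :
    σ ((l : ℤ) ^ (m + π) * C) d = σ ((l : ℤ) ^ m * C) d := by
  obtain ⟨C', rfl⟩ := hNC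
  obtain ⟨kk, hkk⟩ := hπ
  have hld : IsCoprime (l : ℤ) d := hd.of_mul_left_left
  have hCd : IsCoprime (((N * C' : ℕ) : ℤ)) d := hd.of_mul_left_right
  have hcd : IsCoprime ((l : ℤ) ^ m * ((N * C' : ℕ) : ℤ)) d :=
    IsCoprime.mul_left (IsCoprime.pow_left hld) hCd
  have hNc : (N : ℤ) ∣ (l : ℤ) ^ m * ((N * C' : ℕ) : ℤ) :=
    ⟨(l : ℤ) ^ m * C', by push_cast; ring⟩
  rw [← S2 _ d ((l : ℤ) ^ m * C' * kk) hNc hcd]
  congr 1
  have h1 : (l : ℤ) ^ π = 1 + d * kk := by linarith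
  rw [pow_add, h1]
  push_cast
  ring

theorem coprime_of_dvd_succ {x w : ℕ} (h : w ∣ x + 1) : Nat.Coprime x w :=
  Nat.Coprime.coprime_dvd_right h (by simp)

/-- Quadratic reciprocity step: for an odd prime `l` and a prime `P ≡ 3 mod 4`, `P ≡ -1 mod l`,
`l ^ ((P-1)/2) ≡ 1 mod P`. -/
theorem dvd_pow_half_sub_one (l P : ℕ) (hl : l.Prime) (hl2 : l ≠ 2) (hP : P.Prime)
    (hP4 : P % 4 = 3) (hPl : l ∣ P + 1) : (P : ℤ) ∣ (l : ℤ) ^ (P / 2) - 1 := by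
  have : Fact l.Prime := ⟨hl⟩
  have : Fact P.Prime := ⟨hP⟩
  have hPl' : (P : ZMod l) = -1 := by
    have h1 : ((P + 1 : ℕ) : ZMod l) = 0 := (ZMod.natCast_eq_zero_iff _ _).mpr hPl
    push_cast at h1
    exact eq_neg_of_add_eq_zero_left h1
  have hne : l ≠ P := by
    rintro rfl
    have h1 : l ∣ 1 := (Nat.dvd_add_right (dvd_refl l)).mp hPl
    exact hl.one_lt.ne' (Nat.dvd_one.mp h1)
  have hlodd : l % 2 = 1 := hl.eq_two_or_odd.resolve_left hl2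
  have h4 : l % 4 = 1 ∨ l % 4 = 3 := by omega
  have hsq : IsSquare ((l : ℕ) : ZMod P) := by
    rcases h4 with h1 | h3
    · have hP2 : P ≠ 2 := by rintro rfl; omega
      rw [← ZMod.exists_sq_eq_prime_iff_of_mod_four_eq_one (p := l) (q := P) h1 hP2, hPl']
      exact ZMod.exists_sq_eq_neg_one_iff.mpr (by omega)
    · rw [ZMod.exists_sq_eq_prime_iff_of_mod_four_eq_three (p := P) (q := l) hP4 h3 hne.symm,
        hPl', ZMod.exists_sq_eq_neg_one_iff]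
      omega
  have hl0 : ((l : ℕ) : ZMod P) ≠ 0 := by
    intro h
    have h1 := (ZMod.natCast_eq_zero_iff _ _).mp h
    exact hne ((Nat.prime_dvd_prime_iff_eq hP hl).mp h1).symm
  have h1 := (ZMod.euler_criterion P hl0).mp hsq
  have h2 : (((l : ℤ) ^ (P / 2) - 1 : ℤ) : ZMod P) = 0 := by
    push_cast
    rw [h1, sub_self]
  exact (ZMod.intCast_zmod_eq_zero_iff_dvd _ _).mp h2

end Main

section Final

variable {F : Type*} [Field F]

/-- The main theorem for rows with `d ≠ 0`. -/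
theorem symbol_eq_zero_aux (N : ℕ) (hN : 0 < N) (l : ℕ) (hl : l.Prime) (hl2 : l ≠ 2)
    (hlN : ¬ l ∣ N) (hlF : (l : F) ≠ 0) (Q : ℕ) (hQ : 1 < Q) (hQN : Nat.Coprime Q N)
    (hQl : Nat.Coprime Q l) (θ : F) (hθ : θ ≠ l + 1) (σ : ℤ → ℤ → F)
    (S1 : ∀ c d t : ℤ, (N : ℤ) ∣ c → IsCoprime c d → σ c (d + t * c) = σ c d)
    (S2 : ∀ c d s : ℤ, (N : ℤ) ∣ c → IsCoprime c d → σ (c + N * s * d) d = σ c d)
    (SQ : ∀ c d : ℤ, (N : ℤ) ∣ c → IsCoprime c d → IsCoprime c (Q : ℤ) → σ c (Q * d) = σ c d)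
    (H : ∀ c d : ℤ, (N : ℤ) ∣ c → IsCoprime ((l : ℤ) * c) d → d ≡ 1 [ZMOD (l : ℤ)] →
      θ * σ ((l : ℤ) * c) d
        = ∑ j ∈ Finset.range l, σ ((l : ℤ) * ((l : ℤ) * c)) (d - (j : ℤ) * ((l : ℤ) * c)) + σ c d)
    (c d : ℤ) (hNc : (N : ℤ) ∣ c) (hcd : IsCoprime c d) (hdN : d ≡ 1 [ZMOD (N : ℤ)])
    (hd0 : d ≠ 0) : σ c d = 0 := by
  obtain ⟨ω, hω0, hω⟩ := exists_omega (recOp θ l) (recOp_fixed θ l hlF hθ)
  obtain ⟨c', rfl⟩ := hNc
  have hc'd : IsCoprime c' d := hcd.of_mul_left_right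
  -- choice of the prime `c0`
  have hD : NeZero d.natAbs := ⟨Int.natAbs_ne_zero.mpr hd0⟩
  have hunit : IsUnit ((c' : ℤ) : ZMod d.natAbs) := by
    rw [ZMod.coe_int_isUnit_iff_isCoprime]
    have h1 : IsCoprime d c' := hc'd.symm
    rw [Int.isCoprime_iff_gcd_eq_one] at h1 ⊢
    simpa [Int.gcd, Int.natAbs_abs] using h1
  set M : ℕ := 4 * l * ω * N with hM
  have hM0 : 0 < M := Nat.mul_pos (Nat.mul_pos (Nat.mul_pos (by norm_num) hl.pos) hω0) hN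
  obtain ⟨c0, hc0gt, hc0p, hc0⟩ := Nat.forall_exists_prime_gt_and_eq_mod hunit (M + Q)
  have hdvd : d ∣ c' - c0 := by
    have h1 : ((c0 : ℤ) : ZMod d.natAbs) = ((c' : ℤ) : ZMod d.natAbs) := by
      rw [Int.cast_natCast]; exact hc0
    rw [ZMod.intCast_eq_intCast_iff_dvd_sub] at h1
    exact Int.natAbs_dvd.mp h1
  obtain ⟨s, hs⟩ := hdvd
  have e1 : σ ((N : ℤ) * c0) d = σ ((N : ℤ) * c') d := by
    rw [← S2 ((N : ℤ) * c') d (-s) (dvd_mul_right _ _) hcd]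
    congr 1
    linear_combination (-(N : ℤ)) * hs
  have hcd0 : IsCoprime ((N : ℤ) * c0) d := by
    have h1 : (N : ℤ) * c0 = (N : ℤ) * c' + (N * (-s)) * d := by
      linear_combination (-(N : ℤ)) * hs
    rw [h1]
    exact hcd.add_mul_right_left _
  have hc0M : Nat.Coprime M c0 := by
    rw [Nat.coprime_comm]
    refine (Nat.Prime.coprime_iff_not_dvd hc0p).mpr fun h => ?_
    have := Nat.le_of_dvd hM0 h
    omega
  have hc0Q : Nat.Coprime Q c0 := by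
    rw [Nat.coprime_comm]
    refine (Nat.Prime.coprime_iff_not_dvd hc0p).mpr fun h => ?_
    have := Nat.le_of_dvd (by omega) h
    omega
  have hlM : l ∣ M := ⟨4 * ω * N, by rw [hM]; ring⟩
  have hNM : N ∣ M := ⟨4 * l * ω, by rw [hM]; ring⟩
  have h4M : 4 ∣ M := ⟨l * ω * N, by rw [hM]; ring⟩
  have hωM : 4 * ω ∣ M := ⟨l * N, by rw [hM]; ring⟩
  have hc0l : Nat.Coprime l c0 := Nat.Coprime.coprime_dvd_left hlM hc0M
  have hc0N : Nat.Coprime N c0 := Nat.Coprime.coprime_dvd_left hNM hc0M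
  have hlN' : Nat.Coprime l N := (Nat.Prime.coprime_iff_not_dvd hl).mpr hlN
  set C : ℕ := N * c0 with hCdef
  have hC : 0 < C := Nat.mul_pos hN hc0p.pos
  have hNC : N ∣ C := dvd_mul_right _ _
  have hQC : Nat.Coprime Q C := Nat.Coprime.mul_right hQN hc0Q
  have hlC : Nat.Coprime l C := Nat.Coprime.mul_right hlN' hc0l
  -- the primes `P1`, `P2`
  have hMc0 : NeZero (M * c0) := ⟨(Nat.mul_pos hM0 hc0p.pos).ne'⟩
  obtain ⟨P1, -, hP1p, hP1⟩ :=
    Nat.forall_exists_prime_gt_and_eq_mod (q := M * c0) (a := -1) isUnit_one.neg 0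
  have hP1dvd : M * c0 ∣ P1 + 1 := by
    rw [← ZMod.natCast_eq_zero_iff]
    push_cast
    rw [hP1]
    ring
  have hdu : IsUnit ((d : ℤ) : ZMod c0) := by
    rw [ZMod.coe_int_isUnit_iff_isCoprime]
    exact hcd0.of_mul_left_right
  have hunit2 : IsUnit ((ZMod.chineseRemainder hc0M).symm
      ((-1 : ZMod M), -((d : ℤ) : ZMod c0))) :=
    IsUnit.map (ZMod.chineseRemainder hc0M).symm
      (Prod.isUnit_iff.mpr ⟨isUnit_one.neg, hdu.neg⟩)
  obtain ⟨P2, hP2gt, hP2p, hP2⟩ := Nat.forall_exists_prime_gt_and_eq_mod hunit2 P1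
  have hP2' := congrArg (ZMod.chineseRemainder hc0M) hP2
  rw [RingEquiv.apply_symm_apply, map_natCast] at hP2'
  have hP2M : (P2 : ZMod M) = -1 := congrArg Prod.fst hP2'
  have hP2c : (P2 : ZMod c0) = -((d : ℤ) : ZMod c0) := congrArg Prod.snd hP2'
  have hP2Mdvd : M ∣ P2 + 1 := by
    rw [← ZMod.natCast_eq_zero_iff]
    push_cast
    rw [hP2M]
    ring
  have hP2cdvd : (c0 : ℤ) ∣ (P2 : ℤ) + d := by
    rw [← ZMod.intCast_zmod_eq_zero_iff_dvd]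
    push_cast
    rw [hP2c]
    ring
  have hP1M : M ∣ P1 + 1 := Dvd.dvd.trans (dvd_mul_right _ _) hP1dvd
  have hP1c : c0 ∣ P1 + 1 := Dvd.dvd.trans (dvd_mul_left _ _) hP1dvd
  have hne12 : P1 ≠ P2 := by omega
  set d' : ℤ := (P1 : ℤ) * P2 with hd'
  have hNd' : (N : ℤ) ∣ d' - d := by
    have h1 : (N : ℤ) ∣ (P1 : ℤ) + 1 := by exact_mod_cast hNM.trans hP1M
    have h2 : (N : ℤ) ∣ (P2 : ℤ) + 1 := by exact_mod_cast hNM.trans hP2Mdvd
    have h3 : (N : ℤ) ∣ 1 - d := Int.modEq_iff_dvd.mp hdN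
    have h4 : d' - d = ((P1 : ℤ) + 1) * ((P2 : ℤ) + 1) - ((P1 : ℤ) + 1) - ((P2 : ℤ) + 1)
        + (1 - d) := by rw [hd']; ring
    rw [h4]
    exact dvd_add (dvd_sub (dvd_sub (Dvd.dvd.mul_right h1 _) h1) h2) h3
  have hcd' : (c0 : ℤ) ∣ d' - d := by
    have h1 : (c0 : ℤ) ∣ (P1 : ℤ) + 1 := by exact_mod_cast hP1c
    have h4 : d' - d = ((P1 : ℤ) + 1) * P2 - ((P2 : ℤ) + d) := by rw [hd']; ring
    rw [h4]
    exact dvd_sub (Dvd.dvd.mul_right h1 _) hP2cdvd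
  obtain ⟨t, ht⟩ : (N : ℤ) * c0 ∣ d' - d :=
    IsCoprime.mul_dvd (Nat.isCoprime_iff_coprime.mpr hc0N) hNd' hcd'
  have e2 : σ ((N : ℤ) * c0) d' = σ ((N : ℤ) * c0) d := by
    rw [← S1 ((N : ℤ) * c0) d t (dvd_mul_right _ _) hcd0]
    congr 1
    linear_combination ht
  have hd'l : d' ≡ 1 [ZMOD (l : ℤ)] := by
    rw [Int.modEq_iff_dvd]
    have h1 : (l : ℤ) ∣ (P1 : ℤ) + 1 := by exact_mod_cast hlM.trans hP1M
    have h2 : (l : ℤ) ∣ (P2 : ℤ) + 1 := by exact_mod_cast hlM.trans hP2Mdvd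
    have h4 : 1 - d' = -(((P1 : ℤ) + 1) * ((P2 : ℤ) + 1)) + ((P1 : ℤ) + 1) + ((P2 : ℤ) + 1) := by
      rw [hd']; ring
    rw [h4]
    exact dvd_add (dvd_add (Dvd.dvd.mul_right h1 _).neg_right h1) h2
  have hP1cop : Nat.Coprime (l * C) P1 := by
    have h1 : l * C ∣ M * c0 := ⟨4 * ω, by rw [hM, hCdef]; ring⟩
    exact (coprime_of_dvd_succ (h1.trans hP1dvd)).symm
  have hP2cop : Nat.Coprime (l * C) P2 := by
    have h1 : Nat.Coprime l P2 := (coprime_of_dvd_succ (hlM.trans hP2Mdvd)).symm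
    have h2 : Nat.Coprime N P2 := (coprime_of_dvd_succ (hNM.trans hP2Mdvd)).symm
    have h3 : Nat.Coprime c0 P2 := by
      rw [Nat.Prime.coprime_iff_not_dvd hc0p]
      intro h
      have h5 : (c0 : ℤ) ∣ (P2 : ℤ) := by exact_mod_cast h
      have h4 : (c0 : ℤ) ∣ d := (dvd_add_right h5).mp hP2cdvd
      have h6 : IsCoprime (c0 : ℤ) d := hcd0.of_mul_left_right
      have h7 : IsUnit (c0 : ℤ) := h6.isUnit_of_dvd' (dvd_refl _) h4
      exact (Nat.prime_iff_prime_int.mp hc0p).not_isUnit h7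
    exact Nat.Coprime.mul_left h1 (Nat.Coprime.mul_left h2 h3)
  have hCd' : IsCoprime ((l : ℤ) * C) d' := by
    have h1 : IsCoprime (((l * C : ℕ)) : ℤ) ((P1 * P2 : ℕ) : ℤ) :=
      Nat.isCoprime_iff_coprime.mpr (Nat.Coprime.mul_right hP1cop hP2cop)
    push_cast at h1
    rw [hd']
    exact h1
  have h4P1 : P1 % 4 = 3 := by
    obtain ⟨k, hk⟩ := h4M.trans hP1M
    omega
  have h4P2 : P2 % 4 = 3 := by
    obtain ⟨k, hk⟩ := h4M.trans hP2Mdvd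
    omega
  have hq1 := dvd_pow_half_sub_one l P1 hl hl2 hP1p h4P1 (hlM.trans hP1M)
  have hq2 := dvd_pow_half_sub_one l P2 hl hl2 hP2p h4P2 (hlM.trans hP2Mdvd)
  set π : ℕ := (P1 / 2) * (P2 / 2) with hπ
  have hπ0 : 0 < π := by
    have h1 := hP1p.two_le
    have h2 := hP2p.two_le
    apply Nat.mul_pos <;> omega
  have hπd : d' ∣ (l : ℤ) ^ π - 1 := by
    have h1 : (P1 : ℤ) ∣ (l : ℤ) ^ π - 1 := by
      have h := sub_dvd_pow_sub_pow ((l : ℤ) ^ (P1 / 2)) 1 (P2 / 2)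
      rw [one_pow, ← pow_mul] at h
      exact hq1.trans h
    have h2 : (P2 : ℤ) ∣ (l : ℤ) ^ π - 1 := by
      have h := sub_dvd_pow_sub_pow ((l : ℤ) ^ (P2 / 2)) 1 (P1 / 2)
      rw [one_pow, ← pow_mul, mul_comm] at h
      exact hq2.trans h
    have h3 : IsCoprime (P1 : ℤ) (P2 : ℤ) :=
      Nat.isCoprime_iff_coprime.mpr ((Nat.coprime_primes hP1p hP2p).mpr hne12)
    exact h3.mul_dvd h1 h2
  have hhalf : ∀ P : ℕ, M ∣ P + 1 → ω ∣ P / 2 + 1 := by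
    intro P hP
    obtain ⟨k, hk⟩ := hωM.trans hP
    refine ⟨2 * k, ?_⟩
    have h1 : P + 1 = 4 * (ω * k) := by rw [hk]; ring
    have h2 : ω * (2 * k) = 2 * (ω * k) := by ring
    rw [h2]
    omega
  have hπω : Nat.Coprime π ω :=
    Nat.Coprime.mul_left (coprime_of_dvd_succ (hhalf P1 hP1M)) (coprime_of_dvd_succ (hhalf P2 hP2Mdvd))
  -- the sequence `m ↦ σ (l^m C, d')`
  obtain ⟨n₀, hrec⟩ := rec_of N l Q hl hl2 hQ hQl θ σ S1 SQ H C hC hNC hQC hlC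
  have hzero : σ ((l : ℤ) ^ 0 * C) d' = 0 :=
    seq_eq_zero θ l hlF ω hω (fun m => σ ((l : ℤ) ^ m * C) d') n₀ π hπ0 hπω
      (fun k hk => hrec d' hCd' hd'l k hk)
      (fun m => periodic_of N l σ S2 C hNC d' hCd' π hπd m) 0
  have e3 : σ ((N : ℤ) * c0) d' = 0 := by
    have h1 : ((l : ℤ) ^ 0 * (C : ℤ)) = (N : ℤ) * c0 := by
      rw [hCdef]; push_cast; ring
    rw [h1] at hzero
    exact hzero
  rw [← e1, ← e2, e3]

/-- **Integer-row core of the non-Eisenstein vanishing theorem.**  A symbol on coprime integer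
rows `(c, d)`, `N ∣ c`, invariant under `d ↦ d + t c`, `c ↦ c + N s d`, `d ↦ Q d`, and satisfying
the Hecke relation at an odd prime `l ∤ N` with eigenvalue `θ ≠ l + 1`, vanishes on all rows with
`d ≡ 1 mod N`. -/
theorem symbol_eq_zero (N : ℕ) (hN : 0 < N) (l : ℕ) (hl : l.Prime) (hl2 : l ≠ 2)
    (hlN : ¬ l ∣ N) (hlF : (l : F) ≠ 0) (Q : ℕ) (hQ : 1 < Q) (hQN : Nat.Coprime Q N)
    (hQl : Nat.Coprime Q l) (θ : F) (hθ : θ ≠ l + 1) (σ : ℤ → ℤ → F)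
    (S1 : ∀ c d t : ℤ, (N : ℤ) ∣ c → IsCoprime c d → σ c (d + t * c) = σ c d)
    (S2 : ∀ c d s : ℤ, (N : ℤ) ∣ c → IsCoprime c d → σ (c + N * s * d) d = σ c d)
    (SQ : ∀ c d : ℤ, (N : ℤ) ∣ c → IsCoprime c d → IsCoprime c (Q : ℤ) → σ c (Q * d) = σ c d)
    (H : ∀ c d : ℤ, (N : ℤ) ∣ c → IsCoprime ((l : ℤ) * c) d → d ≡ 1 [ZMOD (l : ℤ)] →
      θ * σ ((l : ℤ) * c) d
        = ∑ j ∈ Finset.range l, σ ((l : ℤ) * ((l : ℤ) * c)) (d - (j : ℤ) * ((l : ℤ) * c)) + σ c d)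
    (c d : ℤ) (hNc : (N : ℤ) ∣ c) (hcd : IsCoprime c d) (hdN : d ≡ 1 [ZMOD (N : ℤ)]) :
    σ c d = 0 := by
  by_cases hd0 : d = 0
  · subst hd0
    have hcu : IsUnit c := isCoprime_zero_right.mp hcd
    have hc0 : c ≠ 0 := hcu.ne_zero
    have h1 := S1 c 0 1 hNc hcd
    rw [← h1]
    have hcc : IsCoprime c (0 + 1 * c) := by
      rw [zero_add, one_mul]
      exact isCoprime_self.mpr hcu
    have hN1 : (N : ℤ) ∣ 1 := hNc.trans hcu.dvd
    refine symbol_eq_zero_aux N hN l hl hl2 hlN hlF Q hQ hQN hQl θ hθ σ S1 S2 SQ H c (0 + 1 * c)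
      hNc hcc (Int.modEq_iff_dvd.mpr (hN1.trans (one_dvd _))) ?_
    rw [zero_add, one_mul]
    exact hc0
  · exact symbol_eq_zero_aux N hN l hl hl2 hlN hlF Q hQ hQN hQl θ hθ σ S1 S2 SQ H c d hNc hcd
      hdN hd0

end Final

end Fermat.Agent.S41.H81
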